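import Mathlib

/-!
# GE / E4 (COUNT), file 1: local chord lemmas in a valuation subring

Abstract local analysis of the `x`-coordinate `x₃ = addX x₁ x₂ (slope x₁ x₂ y₁ y₂)` of the sum of
two affine points of a Weierstrass curve over a field `K`, relative to a valuation subring
`A ⊆ K` containing the coefficients and the coordinates of the two points:

* `addX_mem_of_isU_sub`   : `x₁ - x₂` a unit  ⟹ `x₃ ∈ A`;
* `addX_mem_of_isU_sum`   : `y₁ + y₂ + a₁x₁ + a₃` a unit ⟹ `x₃ ∈ A` (the two points reduce to the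
  same non-2-torsion point);
* `isU_sq_mul_addX`       : `y₁ - y₂` a unit, `x₁ - x₂` a non-unit ⟹ `(x₁ - x₂)² x₃` is a unit
  (the two points reduce to opposite non-2-torsion points: pole of order exactly two);
* `isU_mul_addX_of_two_torsion` : the 2-torsion shape ⟹ `X x₃` is a unit (pole of order one in
  the coordinate `X`).

Mathlib only.
-/

set_option autoImplicit false

namespace Fermat.Agent.GE.Count

open WeierstrassCurve WeierstrassCurve.Affine

section Val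

variable {K : Type*} [Field K] (A : ValuationSubring K)

/-- `x` is a unit of the valuation subring `A` (valuation equal to one). -/
def IsU (x : K) : Prop := A.valuation x = 1

variable {A}

theorem IsU.mem {x : K} (h : IsU A x) : x ∈ A := by
  rw [← ValuationSubring.valuation_le_one_iff]; exact le_of_eq h

theorem IsU.notMem_nonunits {x : K} (h : IsU A x) : x ∉ A.nonunits := by
  rw [ValuationSubring.mem_nonunits_iff]; exact not_lt.2 (le_of_eq h.symm)

theorem isU_iff {x : K} : IsU A x ↔ x ∈ A ∧ x ∉ A.nonunits := by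
  constructor
  · intro h; exact ⟨h.mem, h.notMem_nonunits⟩
  · rintro ⟨h1, h2⟩
    rw [← ValuationSubring.valuation_le_one_iff] at h1
    rw [ValuationSubring.mem_nonunits_iff, not_lt] at h2
    exact le_antisymm h1 h2

theorem IsU.ne_zero {x : K} (h : IsU A x) : x ≠ 0 := by
  rintro rfl
  simp [IsU] at h

theorem isU_one : IsU A (1 : K) := by simp [IsU]

theorem IsU.mul {x y : K} (hx : IsU A x) (hy : IsU A y) : IsU A (x * y) := by
  unfold IsU at *; rw [map_mul, hx, hy, one_mul]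

theorem IsU.inv {x : K} (hx : IsU A x) : IsU A x⁻¹ := by
  unfold IsU at *; rw [map_inv₀, hx, inv_one]

theorem IsU.div {x y : K} (hx : IsU A x) (hy : IsU A y) : IsU A (x / y) := by
  rw [div_eq_mul_inv]; exact hx.mul hy.inv

theorem IsU.pow {x : K} (hx : IsU A x) (n : ℕ) : IsU A (x ^ n) := by
  unfold IsU at *; rw [map_pow, hx, one_pow]

theorem IsU.neg {x : K} (hx : IsU A x) : IsU A (-x) := by
  unfold IsU at *; rw [Valuation.map_neg, hx]

theorem IsU.add_nu {x m : K} (hx : IsU A x) (hm : m ∈ A.nonunits) : IsU A (x + m) := by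
  unfold IsU at *
  rw [ValuationSubring.mem_nonunits_iff] at hm
  rw [Valuation.map_add_eq_of_lt_left A.valuation (by rw [hx]; exact hm), hx]

theorem IsU.sub_nu {x m : K} (hx : IsU A x) (hm : m ∈ A.nonunits) : IsU A (x - m) := by
  rw [sub_eq_add_neg]; exact hx.add_nu (A.nonunits.neg_mem hm)

theorem IsU.nu_add {x m : K} (hx : IsU A x) (hm : m ∈ A.nonunits) : IsU A (m + x) := by
  rw [add_comm]; exact hx.add_nu hm

theorem nu_mul_mem' {x y : K} (hx : x ∈ A.nonunits) (hy : y ∈ A) : x * y ∈ A.nonunits := by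
  rw [ValuationSubring.mem_nonunits_iff] at hx ⊢
  rw [← ValuationSubring.valuation_le_one_iff] at hy
  rw [map_mul]
  exact mul_lt_one_of_nonneg_of_lt_one_left zero_le hx hy

theorem mem_mul_nu' {x y : K} (hx : x ∈ A) (hy : y ∈ A.nonunits) : x * y ∈ A.nonunits := by
  rw [mul_comm]; exact nu_mul_mem' hy hx

theorem nu_mem' {x : K} (hx : x ∈ A.nonunits) : x ∈ A := A.nonunits_subset hx

theorem nu_pow {x : K} (hx : x ∈ A.nonunits) {n : ℕ} (hn : 0 < n) : x ^ n ∈ A.nonunits := by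
  obtain ⟨m, rfl⟩ := Nat.exists_eq_succ_of_ne_zero hn.ne'
  rw [pow_succ]
  exact mem_mul_nu' (pow_mem (nu_mem' hx) m) hx

/-- If `p * m` is a unit and `p + m` is integral then both `p` and `m` are units. -/
theorem isU_of_mul_of_add {p m : K} (hmul : IsU A (p * m)) (hadd : p + m ∈ A) :
    IsU A p ∧ IsU A m := by
  have key : ∀ p m : K, IsU A (p * m) → p + m ∈ A → A.valuation p ≤ 1 := by
    intro p m hmul hadd
    by_contra hp
    push Not at hp
    have hm : A.valuation m < 1 := by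
      unfold IsU at hmul
      rw [map_mul] at hmul
      by_contra hm
      push Not at hm
      have : 1 < A.valuation p * A.valuation m := by
        calc (1 : A.ValueGroup) < A.valuation p := hp
          _ = A.valuation p * 1 := (mul_one _).symm
          _ ≤ A.valuation p * A.valuation m := by gcongr
      rw [hmul] at this
      exact lt_irrefl _ this
    have hlt : A.valuation m < A.valuation p := lt_trans hm hp
    have := Valuation.map_add_eq_of_lt_left A.valuation hlt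
    rw [← ValuationSubring.valuation_le_one_iff, this] at hadd
    exact absurd hadd (not_le.2 hp)
  have hp := key p m hmul hadd
  have hm := key m p (by rwa [mul_comm]) (by rwa [add_comm])
  unfold IsU at hmul ⊢
  rw [map_mul] at hmul
  constructor
  · apply le_antisymm hp
    by_contra h
    push Not at h
    have : A.valuation p * A.valuation m < 1 := by
      calc A.valuation p * A.valuation m ≤ A.valuation p * 1 := by gcongr
        _ = A.valuation p := mul_one _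
        _ < 1 := h
    rw [hmul] at this
    exact lt_irrefl _ this
  · apply le_antisymm hm
    by_contra h
    push Not at h
    have : A.valuation p * A.valuation m < 1 := by
      calc A.valuation p * A.valuation m ≤ 1 * A.valuation m := by gcongr
        _ = A.valuation m := one_mul _
        _ < 1 := h
    rw [hmul] at this
    exact lt_irrefl _ this

end Val

section Chord

variable {K : Type*} [Field K] [DecidableEq K] {A : ValuationSubring K} {W : Affine K}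

/-- chord with `x₁ - x₂` a unit: the sum has integral `x`-coordinate. -/
theorem addX_mem_of_isU_sub (ha₁ : W.a₁ ∈ A) (ha₂ : W.a₂ ∈ A) {x₁ x₂ y₁ y₂ : K}
    (hx₁ : x₁ ∈ A) (hx₂ : x₂ ∈ A) (hy₁ : y₁ ∈ A) (hy₂ : y₂ ∈ A) (hu : IsU A (x₁ - x₂)) :
    W.addX x₁ x₂ (W.slope x₁ x₂ y₁ y₂) ∈ A := by
  have hx : x₁ ≠ x₂ := fun h => hu.ne_zero (sub_eq_zero.2 h)
  rw [slope_of_X_ne hx]
  have hl : (y₁ - y₂) / (x₁ - x₂) ∈ A := by
    rw [div_eq_mul_inv]
    exact A.mul_mem _ _ (sub_mem hy₁ hy₂) hu.inv.mem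
  simp only [addX]
  exact sub_mem (sub_mem (sub_mem (A.add_mem _ _ (pow_mem hl 2) (A.mul_mem _ _ ha₁ hl)) ha₂) hx₁) hx₂

omit [DecidableEq K] in
/-- the "tangent-type" slope identity: for two points of the curve,
`(y₁ - y₂)(y₁ + y₂ + a₁x₁ + a₃) = (x₁ - x₂)(x₁² + x₁x₂ + x₂² + a₂(x₁ + x₂) + a₄ - a₁y₂)`. -/
theorem sub_mul_sum_eq {x₁ x₂ y₁ y₂ : K} (h₁ : W.Equation x₁ y₁) (h₂ : W.Equation x₂ y₂) :
    (y₁ - y₂) * (y₁ + y₂ + W.a₁ * x₁ + W.a₃) =
      (x₁ - x₂) * (x₁ ^ 2 + x₁ * x₂ + x₂ ^ 2 + W.a₂ * (x₁ + x₂) + W.a₄ - W.a₁ * y₂) := by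
  rw [equation_iff] at h₁ h₂
  linear_combination h₁ - h₂

/-- chord between two points with `y₁ + y₂ + a₁x₁ + a₃` a unit (both reduce to the same
non-2-torsion point): the sum has integral `x`-coordinate. -/
theorem addX_mem_of_isU_sum (ha₁ : W.a₁ ∈ A) (ha₂ : W.a₂ ∈ A) (ha₄ : W.a₄ ∈ A)
    {x₁ x₂ y₁ y₂ : K} (h₁ : W.Equation x₁ y₁) (h₂ : W.Equation x₂ y₂)
    (hx₁ : x₁ ∈ A) (hx₂ : x₂ ∈ A) (hy₂ : y₂ ∈ A) (hx : x₁ ≠ x₂)
    (hu : IsU A (y₁ + y₂ + W.a₁ * x₁ + W.a₃)) :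
    W.addX x₁ x₂ (W.slope x₁ x₂ y₁ y₂) ∈ A := by
  rw [slope_of_X_ne hx]
  have hx0 : x₁ - x₂ ≠ 0 := sub_ne_zero.2 hx
  have hl : (y₁ - y₂) / (x₁ - x₂) =
      (x₁ ^ 2 + x₁ * x₂ + x₂ ^ 2 + W.a₂ * (x₁ + x₂) + W.a₄ - W.a₁ * y₂) *
        (y₁ + y₂ + W.a₁ * x₁ + W.a₃)⁻¹ := by
    have h0 := hu.ne_zero
    have := sub_mul_sum_eq h₁ h₂
    rw [div_eq_iff hx0, mul_right_comm, eq_mul_inv_iff_mul_eq₀ h0]
    linear_combination this
  have hl' : (y₁ - y₂) / (x₁ - x₂) ∈ A := by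
    rw [hl]
    refine A.mul_mem _ _ ?_ hu.inv.mem
    refine sub_mem (A.add_mem _ _ (A.add_mem _ _ (A.add_mem _ _ (A.add_mem _ _ (pow_mem hx₁ 2)
      (A.mul_mem _ _ hx₁ hx₂)) (pow_mem hx₂ 2)) (A.mul_mem _ _ ha₂ (A.add_mem _ _ hx₁ hx₂))) ha₄)
      (A.mul_mem _ _ ha₁ hy₂)
  simp only [addX]
  exact sub_mem (sub_mem (sub_mem (A.add_mem _ _ (pow_mem hl' 2) (A.mul_mem _ _ ha₁ hl')) ha₂)
    hx₁) hx₂

/-- chord between two points with `y₁ - y₂` a unit and `x₁ - x₂` a non-unit (the two points reduce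
to opposite, distinct points): `(x₁ - x₂)² x₃` is a unit, a pole of order exactly two. -/
theorem isU_sq_mul_addX (ha₁ : W.a₁ ∈ A) (ha₂ : W.a₂ ∈ A) {x₁ x₂ y₁ y₂ : K}
    (hx₁ : x₁ ∈ A) (hx₂ : x₂ ∈ A) (hx : x₁ ≠ x₂) (hxn : x₁ - x₂ ∈ A.nonunits)
    (hu : IsU A (y₁ - y₂)) :
    IsU A ((x₁ - x₂) ^ 2 * W.addX x₁ x₂ (W.slope x₁ x₂ y₁ y₂)) := by
  rw [slope_of_X_ne hx]
  have hx0 : x₁ - x₂ ≠ 0 := sub_ne_zero.2 hx
  have : (x₁ - x₂) ^ 2 * W.addX x₁ x₂ ((y₁ - y₂) / (x₁ - x₂)) =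
      (y₁ - y₂) ^ 2 + (x₁ - x₂) * (W.a₁ * (y₁ - y₂) - (W.a₂ + x₁ + x₂) * (x₁ - x₂)) := by
    simp only [addX]
    field_simp
    ring
  rw [this]
  refine (hu.pow 2).add_nu (nu_mul_mem' hxn ?_)
  exact sub_mem (A.mul_mem _ _ ha₁ hu.mem)
    (A.mul_mem _ _ (A.add_mem _ _ (A.add_mem _ _ ha₂ hx₁) hx₂) (nu_mem' hxn))

omit [DecidableEq K] in
/-- the local shape of the curve at a 2-torsion point `(c, d)`: with `X = x - c`, `Y = y - d`
and `2d + a₁c + a₃ = 0` one has `Y² = X (U₀ + X(3c + a₂) + X² - a₁Y)`,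
`U₀ = 3c² + 2a₂c + a₄ - a₁d`. -/
theorem sq_eq_of_two_torsion {x y c d : K} (h : W.Equation x y) (hcd : W.Equation c d)
    (h2 : 2 * d + W.a₁ * c + W.a₃ = 0) :
    (y - d) ^ 2 = (x - c) * ((3 * c ^ 2 + 2 * W.a₂ * c + W.a₄ - W.a₁ * d) +
      (x - c) * (3 * c + W.a₂) + (x - c) ^ 2 - W.a₁ * (y - d)) := by
  rw [equation_iff] at h hcd
  linear_combination h - hcd - (y - d) * h2

/-- **2-torsion shape**: `(x₁, y₁)` a point of the curve close to the 2-torsion point `(c, d)`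
(`X = x₁ - c` and `Y = y₁ - d` non-units, `U₀ = 3c² + 2a₂c + a₄ - a₁d` a unit), and a second
point `(x₂, y₂)` with `x₁ - x₂ = X w₂`, `y₁ - y₂ = Y w₁` for units `w₁, w₂`.
Then `X x₃` is a unit of `A`: a simple pole in the coordinate `X`. -/
theorem isU_mul_addX_of_two_torsion (ha₁ : W.a₁ ∈ A) (ha₂ : W.a₂ ∈ A)
    {x₁ x₂ y₁ y₂ c d w₁ w₂ : K} (h₁ : W.Equation x₁ y₁) (hcd : W.Equation c d)
    (h2 : 2 * d + W.a₁ * c + W.a₃ = 0) (hc : c ∈ A)
    (hU : IsU A (3 * c ^ 2 + 2 * W.a₂ * c + W.a₄ - W.a₁ * d))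
    (hX : x₁ - c ∈ A.nonunits) (hX0 : x₁ - c ≠ 0) (hY : y₁ - d ∈ A.nonunits)
    (hx₂ : x₂ ∈ A)
    (hw₁ : IsU A w₁) (hw₂ : IsU A w₂) (hx : x₁ - x₂ = (x₁ - c) * w₂)
    (hy : y₁ - y₂ = (y₁ - d) * w₁) :
    IsU A ((x₁ - c) * W.addX x₁ x₂ (W.slope x₁ x₂ y₁ y₂)) := by
  set X := x₁ - c with hXdef
  set Y := y₁ - d with hYdef
  have hx₁ : x₁ ∈ A := by
    have : x₁ = X + c := by rw [hXdef]; ring
    rw [this]; exact A.add_mem _ _ (nu_mem' hX) hc
  have hne : x₁ ≠ x₂ := by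
    intro h
    have : X * w₂ = 0 := by rw [← hx, h, sub_self]
    rcases mul_eq_zero.1 this with h | h
    · exact hX0 h
    · exact hw₂.ne_zero h
  -- the unit `V` with `Y² = X V`
  set V := (3 * c ^ 2 + 2 * W.a₂ * c + W.a₄ - W.a₁ * d) + X * (3 * c + W.a₂) + X ^ 2 - W.a₁ * Y
    with hV
  have h3 : (3 : K) ∈ A := by
    have : (3 : K) = 1 + 1 + 1 := by norm_num
    rw [this]; exact A.add_mem _ _ (A.add_mem _ _ A.one_mem A.one_mem) A.one_mem
  have hVU : IsU A V := by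
    rw [hV]
    refine IsU.sub_nu (IsU.add_nu (IsU.add_nu hU ?_) ?_) ?_
    · exact nu_mul_mem' hX (A.add_mem _ _ (A.mul_mem _ _ h3 hc) ha₂)
    · exact nu_pow hX (by norm_num)
    · exact mem_mul_nu' ha₁ hY
  have hsq : Y ^ 2 = X * V := sq_eq_of_two_torsion h₁ hcd h2
  rw [slope_of_X_ne hne, hx, hy]
  have hw20 := hw₂.ne_zero
  have : X * W.addX x₁ x₂ (Y * w₁ / (X * w₂)) =
      V * (w₁ / w₂) ^ 2 + (W.a₁ * Y * (w₁ / w₂) - X * (W.a₂ + x₁ + x₂)) := by
    simp only [addX]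
    field_simp
    linear_combination (w₁ ^ 2) * hsq
  rw [this]
  refine (hVU.mul ((hw₁.div hw₂).pow 2)).add_nu ?_
  refine A.nonunits.sub_mem ?_ ?_
  · have : W.a₁ * Y * (w₁ / w₂) = Y * (W.a₁ * (w₁ / w₂)) := by ring
    rw [this]
    exact nu_mul_mem' hY (A.mul_mem _ _ ha₁ (hw₁.div hw₂).mem)
  · exact nu_mul_mem' hX (A.add_mem _ _ (A.add_mem _ _ ha₂ hx₁) hx₂)

end Chord

end Fermat.Agent.GE.Count
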