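import Fermat.Agent.S05.KernelRedX
import Fermat.Agent.GE.Count.LocalChord

/-!
# GE / E4 (COUNT), hypothesis (A): the pole at infinity

Abstract form of "`deg u = deg v + 1`" for `x(P₀ ± φʲ P₀) = u / v`: if `Q = (x₁, y₁)` lies in the
kernel of reduction of a valuation subring `A` (`x₁ ∉ A`) and `R = (x₂, y₂)` lies deeper
(`x₁ / x₂` a non-unit of `A`, e.g. `x₂ = x₁ ^ q`), then `Q + R` and `Q - R` are affine points and
`x(Q ± R) / x₁` are units of `A`.  Proof: the pair law in the inverse `x`-coordinate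
(`Fermat.Agent.S05.KR.pair_z`) and the "product a unit, sum integral" lemma.
-/

set_option autoImplicit false

namespace Fermat.Agent.GE.Count

open WeierstrassCurve WeierstrassCurve.Affine Fermat.Agent.S05.KR

variable {K : Type*} [Field K] [DecidableEq K] {A : ValuationSubring K} {W : Affine K}

/-- the inverse-`x` coordinates of `Q + R` and `Q - R`, divided by the one of `Q`, are units. -/
theorem isU_zc_add_sub_div (hB : IntegralB A W) {x₁ y₁ x₂ y₂ : K}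
    (h₁ : W.Nonsingular x₁ y₁) (h₂ : W.Nonsingular x₂ y₂)
    (hx₁ : x₁ ∉ A) (hx₂ : x₂ ≠ 0) (h21 : x₁ / x₂ ∈ A.nonunits) :
    IsU A (zc W (Point.some x₁ y₁ h₁ + Point.some x₂ y₂ h₂) * x₁) ∧
      IsU A (zc W (Point.some x₁ y₁ h₁ - Point.some x₂ y₂ h₂) * x₁) := by
  have hx₁0 : x₁ ≠ 0 := by rintro rfl; exact hx₁ A.zero_mem
  set s := x₁⁻¹ with hs
  set ρ := x₁ / x₂ with hρ
  have hsN : s ∈ A.nonunits := (ValuationSubring.inv_mem_nonunits_iff A).2 (Or.inr hx₁)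
  have hsA : s ∈ A := nu_mem' hsN
  have hρA : ρ ∈ A := nu_mem' h21
  have ht : x₂⁻¹ = s * ρ := by rw [hs, hρ]; field_simp
  have htN : x₂⁻¹ ∈ A.nonunits := by rw [ht]; exact nu_mul_mem' hsN hρA
  have htA : x₂⁻¹ ∈ A := nu_mem' htN
  have hs0 : s ≠ 0 := inv_ne_zero hx₁0
  obtain ⟨m, hm, hD⟩ := zD_eq_one_sub hB hsA htN
  have hDU : IsU A (zD W s x₂⁻¹) := by
    rw [hD]; exact isU_one.sub_nu hm
  have hD0 := hDU.ne_zero
  have hQ : ZReg W (Point.some x₁ y₁ h₁) := zReg_some W h₁ hx₁0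
  have hR : ZReg W (Point.some x₂ y₂ h₂) := zReg_some W h₂ hx₂
  obtain ⟨-, -, hprod, hsum⟩ := pair_z W hQ hR (by simpa [zc_some] using hD0)
  simp only [zc_some] at hprod hsum
  rw [← hs] at hprod hsum
  set σp := zc W (Point.some x₁ y₁ h₁ + Point.some x₂ y₂ h₂) with hσp
  set σm := zc W (Point.some x₁ y₁ h₁ - Point.some x₂ y₂ h₂) with hσm
  have e1 : σp * x₁ = σp / s := by rw [hs]; field_simp
  have e2 : σm * x₁ = σm / s := by rw [hs]; field_simp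
  rw [e1, e2]
  apply isU_of_mul_of_add
  · -- product
    have : σp / s * (σm / s) = (1 - ρ) ^ 2 * (zD W s x₂⁻¹)⁻¹ := by
      have h' : σp * σm = (s - x₂⁻¹) ^ 2 * (zD W s x₂⁻¹)⁻¹ :=
        (eq_mul_inv_iff_mul_eq₀ hD0).2 hprod
      have : σp / s * (σm / s) = σp * σm / s ^ 2 := by field_simp
      rw [this, h', ht]; field_simp
    rw [this]
    exact ((isU_one.sub_nu h21).pow 2).mul hDU.inv
  · -- sum
    have h2 : (2 : K) ∈ A := two_mem_vs A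
    have hsum' : σp + σm = zN W s x₂⁻¹ * (zD W s x₂⁻¹)⁻¹ :=
      (eq_mul_inv_iff_mul_eq₀ hD0).2 hsum
    have hN : zN W s x₂⁻¹ = s * (2 * (1 + ρ) + W.b₂ * x₂⁻¹ + W.b₄ * x₂⁻¹ * (s + x₂⁻¹)
        + W.b₆ * s * x₂⁻¹ ^ 2) := by
      simp only [zN]
      rw [ht]; ring
    have : σp / s + σm / s = (2 * (1 + ρ) + W.b₂ * x₂⁻¹ + W.b₄ * x₂⁻¹ * (s + x₂⁻¹)
        + W.b₆ * s * x₂⁻¹ ^ 2) * (zD W s x₂⁻¹)⁻¹ := by
      have : σp / s + σm / s = (σp + σm) / s := by field_simp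
      rw [this, hsum', hN]; field_simp
    rw [this]
    refine A.mul_mem _ _ ?_ hDU.inv.mem
    refine A.add_mem _ _ (A.add_mem _ _ (A.add_mem _ _ ?_ ?_) ?_) ?_
    · exact A.mul_mem _ _ h2 (A.add_mem _ _ A.one_mem hρA)
    · exact A.mul_mem _ _ hB.b₂ htA
    · exact A.mul_mem _ _ (A.mul_mem _ _ hB.b₄ htA) (A.add_mem _ _ hsA htA)
    · exact A.mul_mem _ _ (A.mul_mem _ _ hB.b₆ hsA) (pow_mem htA 2)

/-- **(A) in point form**: `Q + R` is an affine point whose `x`-coordinate is `x₁` times a unit. -/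
theorem exists_add_isU_div (hB : IntegralB A W) {x₁ y₁ x₂ y₂ : K}
    (h₁ : W.Nonsingular x₁ y₁) (h₂ : W.Nonsingular x₂ y₂)
    (hx₁ : x₁ ∉ A) (hx₂ : x₂ ≠ 0) (h21 : x₁ / x₂ ∈ A.nonunits) :
    ∃ (x₃ y₃ : K) (h₃ : W.Nonsingular x₃ y₃),
      Point.some x₁ y₁ h₁ + Point.some x₂ y₂ h₂ = Point.some x₃ y₃ h₃ ∧ IsU A (x₃ / x₁) := by
  have hx₁0 : x₁ ≠ 0 := by rintro rfl; exact hx₁ A.zero_mem
  have hU := (isU_zc_add_sub_div hB h₁ h₂ hx₁ hx₂ h21).1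
  cases hS : Point.some x₁ y₁ h₁ + Point.some x₂ y₂ h₂ with
  | zero =>
    rw [hS] at hU
    have e0 : (Point.zero : W.Point) = 0 := rfl
    rw [e0, zc_zero, zero_mul] at hU
    exact absurd rfl hU.ne_zero
  | some x₃ y₃ h₃ =>
    rw [hS, zc_some] at hU
    refine ⟨x₃, y₃, h₃, rfl, ?_⟩
    have hx₃ : x₃ ≠ 0 := by
      rintro rfl
      rw [inv_zero, zero_mul] at hU
      exact absurd rfl hU.ne_zero
    have : x₃ / x₁ = (x₃⁻¹ * x₁)⁻¹ := by field_simp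
    rw [this]; exact hU.inv

/-- **(A) in point form**, difference. -/
theorem exists_sub_isU_div (hB : IntegralB A W) {x₁ y₁ x₂ y₂ : K}
    (h₁ : W.Nonsingular x₁ y₁) (h₂ : W.Nonsingular x₂ y₂)
    (hx₁ : x₁ ∉ A) (hx₂ : x₂ ≠ 0) (h21 : x₁ / x₂ ∈ A.nonunits) :
    ∃ (x₃ y₃ : K) (h₃ : W.Nonsingular x₃ y₃),
      Point.some x₁ y₁ h₁ - Point.some x₂ y₂ h₂ = Point.some x₃ y₃ h₃ ∧ IsU A (x₃ / x₁) := by
  have hU := (isU_zc_add_sub_div hB h₁ h₂ hx₁ hx₂ h21).2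
  cases hS : Point.some x₁ y₁ h₁ - Point.some x₂ y₂ h₂ with
  | zero =>
    rw [hS] at hU
    have e0 : (Point.zero : W.Point) = 0 := rfl
    rw [e0, zc_zero, zero_mul] at hU
    exact absurd rfl hU.ne_zero
  | some x₃ y₃ h₃ =>
    rw [hS, zc_some] at hU
    refine ⟨x₃, y₃, h₃, rfl, ?_⟩
    have hx₁0 : x₁ ≠ 0 := by rintro rfl; exact hx₁ A.zero_mem
    have hx₃ : x₃ ≠ 0 := by
      rintro rfl
      rw [inv_zero, zero_mul] at hU
      exact absurd rfl hU.ne_zero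
    have : x₃ / x₁ = (x₃⁻¹ * x₁)⁻¹ := by field_simp
    rw [this]; exact hU.inv

omit [DecidableEq K] in
/-- Frobenius twin: for `x₂ = x₁ ^ q` with `2 ≤ q` the hypothesis `x₁ / x₂ ∈ nonunits` holds. -/
theorem div_pow_mem_nonunits {x₁ : K} (hx₁ : x₁ ∉ A) {q : ℕ} (hq : 2 ≤ q) :
    x₁ / x₁ ^ q ∈ A.nonunits := by
  have hx₁0 : x₁ ≠ 0 := by rintro rfl; exact hx₁ A.zero_mem
  have hsN : x₁⁻¹ ∈ A.nonunits := (ValuationSubring.inv_mem_nonunits_iff A).2 (Or.inr hx₁)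
  obtain ⟨r, rfl⟩ := Nat.exists_eq_add_of_le hq
  have : x₁ / x₁ ^ (2 + r) = x₁⁻¹ ^ (1 + r) := by
    have h1 : x₁ ^ (2 + r) = x₁ ^ (1 + r) * x₁ := by
      rw [← pow_succ]; congr 1; omega
    rw [inv_pow, div_eq_iff (pow_ne_zero _ hx₁0), h1,
      inv_mul_cancel_left₀ (pow_ne_zero _ hx₁0)]
  rw [this]
  exact nu_pow hsN (by omega)

end Fermat.Agent.GE.Count
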