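import Fermat.Agent.GE.FF.Gamma
import Fermat.Agent.GE.FF.PlacesRes
import Fermat.Agent.GE.RedHom
import Fermat.Agent.GE.CountAbs
import Fermat.Agent.GE.Count.LocalInfty

/-!
# GE / E4 (COUNT), concrete form

`l` prime, `V` an elliptic curve over `ZMod l`, `k` an algebraically closed field of
characteristic `l`, `K = FF.K V k` the function field, `P0` the generic point, `φ` the
`l^j`-Frobenius.  For `β = 1 + ε φ` (`ε = ± 1`, `j ≥ 1`):
the `x`-coordinate of `β P0` is a rational function `r ∈ k(t)` and
`#ker (β on V(k)) = max (deg num r) (deg denom r)`.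
-/

set_option autoImplicit false
set_option linter.unusedSectionVars false

namespace Fermat.Agent.GE.Count

open Polynomial WeierstrassCurve WeierstrassCurve.Affine IsLocalRing
open Fermat.Agent.GE.FF Fermat.Agent.GE.FF.PlacesAbs Fermat.Agent.GE.RedHom

universe v

section Basic

variable {F0 : Type*} [Field F0] (W : Affine F0) (k : Type v) [Field k] [Algebra F0 k]

/-- polynomials in `t`: `k[X] → k(t) → K` is evaluation at `tK` -/
theorem algebraMap_poly (p : k[X]) :
    algebraMap (RatFunc k) (K W k) (algebraMap k[X] (RatFunc k) p) = aeval (tK W k) p := by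
  rw [tK, aeval_algebraMap_apply, RatFunc.aeval_X_left_eq_algebraMap]

/-- an element of `k(t)` inside `K` is the quotient of the values of its numerator and
denominator -/
theorem algebraMap_ratFunc (r : RatFunc k) :
    algebraMap (RatFunc k) (K W k) r = aeval (tK W k) r.num / aeval (tK W k) r.denom := by
  conv_lhs => rw [← RatFunc.num_div_denom r]
  rw [map_div₀, algebraMap_poly, algebraMap_poly]

theorem aeval_tK_ne_zero {p : k[X]} (hp : p ≠ 0) : aeval (tK W k) p ≠ 0 := by
  intro h
  exact transcendental_tK W k ⟨p, hp, h⟩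

/-- iterated base change -/
theorem baseChange_baseChange : (W⁄k)⁄(K W k) = W⁄(K W k) := by
  simp only [Affine.baseChange, WeierstrassCurve.baseChange, WeierstrassCurve.map_map]
  rw [← IsScalarTower.algebraMap_eq]

theorem equation_gen' : ((W⁄k)⁄(K W k)).Equation (tK W k) (y0 W k) := by
  rw [baseChange_baseChange]; exact equation_gen W k

end Basic

section Place

variable (l : ℕ) [Fact l.Prime] (V : Affine (ZMod l)) (k : Type v) [Field k] [Algebra (ZMod l) k]
variable (A : ValuationSubring (K V k))

theorem algebraMap_ZMod_mem (a : ZMod l) : algebraMap (ZMod l) (K V k) a ∈ A := by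
  rw [← ZMod.natCast_zmod_val a, map_natCast]
  exact natCast_mem A _

/-- the `ZMod l`-algebra structure of a valuation ring of `K` -/
noncomputable instance algZA : Algebra (ZMod l) A :=
  ((algebraMap (ZMod l) (K V k)).codRestrict A (algebraMap_ZMod_mem l V k A)).toAlgebra

instance isScalarTower_ZA : IsScalarTower (ZMod l) A (K V k) :=
  IsScalarTower.of_algebraMap_eq (fun _ => rfl)

variable (hk : ∀ a : k, algebraMap k (K V k) a ∈ A)

/-- the constants inside the valuation ring -/
noncomputable def toA : k →+* A := (algebraMap k (K V k)).codRestrict A hk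

@[simp] theorem coe_toA (a : k) : ((toA l V k A hk a : A) : K V k) = algebraMap k (K V k) a := rfl

/-- the constants inside the residue field, as a `ZMod l`-algebra map -/
noncomputable def toRes : k →ₐ[ZMod l] ResidueField A where
  toRingHom := (residue A).comp (toA l V k A hk)
  commutes' := fun a => by
    show residue A (toA l V k A hk (algebraMap (ZMod l) k a)) = residue A (algebraMap (ZMod l) A a)
    congr 1

theorem toRes_apply (a : k) : toRes l V k A hk a = residue A (toA l V k A hk a) := rfl

theorem toRes_injective : Function.Injective (toRes l V k A hk) :=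
  (toRes l V k A hk).toRingHom.injective

/-- an element of `A` congruent to a constant has that constant as residue -/
theorem residue_eq_toRes {z : K V k} (hz : z ∈ A) {a : k}
    (h : z - algebraMap k (K V k) a ∈ A.nonunits) :
    residue A ⟨z, hz⟩ = toRes l V k A hk a := by
  rw [toRes_apply, ← sub_eq_zero, ← map_sub, residue_eq_zero_iff]
  exact ValuationSubring.coe_mem_nonunits_iff.1 h

end Place

section FrobAlg

variable (l : ℕ) [Fact l.Prime] (R : Type*) [Field R] [Algebra (ZMod l) R]

theorem charP_of_algebra : CharP R l :=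
  charP_of_injective_algebraMap (algebraMap (ZMod l) R).injective l

/-- the `l`-Frobenius of a field of characteristic `l`, as a `ZMod l`-algebra endomorphism -/
noncomputable def frobAlg : R →ₐ[ZMod l] R :=
  haveI := charP_of_algebra l R
  { toRingHom := frobenius R l
    commutes' := fun a => by
      show (algebraMap (ZMod l) R a) ^ l = algebraMap (ZMod l) R a
      rw [← map_pow, ZMod.pow_card] }

@[simp] theorem frobAlg_apply (z : R) : frobAlg l R z = z ^ l := rfl

theorem frobAlg_pow_apply (j : ℕ) (z : R) : (frobAlg l R ^ j) z = z ^ l ^ j := by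
  induction j generalizing z with
  | zero => simp
  | succ n ih =>
    rw [pow_succ, AlgHom.mul_apply, frobAlg_apply, ih, ← pow_mul, pow_succ, mul_comm]

end FrobAlg

section Spec

variable (l : ℕ) [Fact l.Prime] (V : Affine (ZMod l)) [V.IsElliptic]
  (k : Type v) [Field k] [Algebra (ZMod l) k] [DecidableEq k]
variable (A : ValuationSubring (K V k)) (hk : ∀ a : k, algebraMap k (K V k) a ∈ A)

noncomputable instance decEqRes : DecidableEq (ResidueField A) := Classical.decEq _

theorem isRedOf_A : IsRedOf A (V⁄(K V k)) (V⁄(ResidueField A)) :=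
  isRedOf_baseChange (A := A) (K := K V k) V

theorem Δ_res_ne_zero : (V⁄(ResidueField A)).Δ ≠ 0 :=
  (V⁄(ResidueField A)).isUnit_Δ.ne_zero

/-- the reduction homomorphism at `A` -/
noncomputable def redA : (V⁄(K V k)).Point →+ (V⁄(ResidueField A)).Point :=
  redHom (isRedOf_A l V k A) (Δ_res_ne_zero l V k A)

theorem redA_apply (P : (V⁄(K V k)).Point) :
    redA l V k A P = red A (V⁄(ResidueField A)) P := rfl

/-- the embedding `V(k) → V(κ_A)` -/
noncomputable def embRes : (V⁄k).Point →+ (V⁄(ResidueField A)).Point :=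
  Point.map (W' := V) (toRes l V k A hk)

theorem embRes_injective : Function.Injective (embRes l V k A hk) := Point.map_injective _

/-- **the generic point reduces to `T` at a place over `T`** -/
theorem redA_P0 {c d : k} (hT : (V⁄k).Nonsingular c d)
    (hA : IsPlaceAt (V⁄k) A (tK V k) (y0 V k) (equation_gen' V k) hT.1) :
    redA l V k A (P0 V k) = embRes l V k A hk (Point.some c d hT) := by
  rw [redA_apply]
  unfold P0
  obtain ⟨hy, hn, e⟩ := red_some_of_mem (isRedOf_A l V k A) (Δ_res_ne_zero l V k A)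
    (nonsingular_gen V k) hA.t_mem
  rw [e]
  unfold embRes
  rw [Point.map_some]
  exact some_congr (residue_eq_toRes l V k A hk hA.t_mem hA.t_sub_mem_nonunits)
    (residue_eq_toRes l V k A hk hy hA.y_sub_mem_nonunits) _ _

/-- Frobenius on the points of `K`, `k`, `κ_A` -/
noncomputable def phiK (j : ℕ) : (V⁄(K V k)).Point →+ (V⁄(K V k)).Point :=
  Point.map (W' := V) (frobK l V k ^ j)

noncomputable def phik (j : ℕ) : (V⁄k).Point →+ (V⁄k).Point :=
  Point.map (W' := V) (frobAlg l k ^ j)

theorem pow_mem_iff (j : ℕ) (x : K V k) : (frobK l V k ^ j) x ∈ A ↔ x ∈ A := by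
  rw [frobK_pow_apply]
  constructor
  · intro h
    by_contra hx
    have hx0 : x ≠ 0 := by rintro rfl; exact hx A.zero_mem
    have hxi : x⁻¹ ∈ A.nonunits := (ValuationSubring.inv_mem_nonunits_iff A).2 (Or.inr hx)
    have hpos : 0 < l ^ j := pos_of_ne_zero (pow_ne_zero _ (Fact.out : l.Prime).ne_zero)
    have h1 : (x⁻¹) ^ l ^ j ∈ A.nonunits := nu_pow hxi hpos
    have h2 : x ^ l ^ j * (x⁻¹) ^ l ^ j ∈ A.nonunits := mem_mul_nu' h h1
    rw [← mul_pow, mul_inv_cancel₀ hx0, one_pow] at h2
    exact absurd h2 (isU_one (A := A)).notMem_nonunits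
  · intro h; exact pow_mem h _

/-- reduction commutes with Frobenius, on the generic point -/
theorem redA_phiK (j : ℕ) (P : (V⁄(K V k)).Point) :
    redA l V k A (phiK l V k j P) =
      Point.map (W' := V) (frobAlg l (ResidueField A) ^ j) (redA l V k A P) := by
  rw [redA_apply, redA_apply]
  unfold phiK
  refine red_map (R := ZMod l) (S := ZMod l) V (isRedOf_A l V k A) (Δ_res_ne_zero l V k A)
    (frobK l V k ^ j) (frobAlg l (ResidueField A) ^ j) (pow_mem_iff l V k A j) ?_ P
  intro x hx hfx
  rw [frobAlg_pow_apply, ← map_pow]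
  congr 1
  apply Subtype.ext
  show x ^ l ^ j = (frobK l V k ^ j) x
  rw [frobK_pow_apply]

theorem embRes_phik (j : ℕ) (T : (V⁄k).Point) :
    Point.map (W' := V) (frobAlg l (ResidueField A) ^ j) (embRes l V k A hk T) =
      embRes l V k A hk (phik l V k j T) := by
  unfold embRes phik
  have h : (frobAlg l (ResidueField A) ^ j).comp (toRes l V k A hk) =
      (toRes l V k A hk).comp (frobAlg l k ^ j) := by
    ext a
    show (frobAlg l (ResidueField A) ^ j) (toRes l V k A hk a) =
      toRes l V k A hk ((frobAlg l k ^ j) a)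
    rw [frobAlg_pow_apply, frobAlg_pow_apply, map_pow]
  rw [Point.map_map, Point.map_map, h]

/-- **specialisation**: for `β = 1 + ε φʲ`, the reduction of `β P0` at a place over `T` is `β T`. -/
theorem redA_beta (ε : ℤ) (j : ℕ) {c d : k} (hT : (V⁄k).Nonsingular c d)
    (hA : IsPlaceAt (V⁄k) A (tK V k) (y0 V k) (equation_gen' V k) hT.1) :
    redA l V k A (P0 V k + ε • phiK l V k j (P0 V k)) =
      embRes l V k A hk (Point.some c d hT + ε • phik l V k j (Point.some c d hT)) := by
  rw [map_add, map_zsmul, map_add, map_zsmul, redA_phiK, redA_P0 l V k A hk hT hA, embRes_phik]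

end Spec

section Main

variable (l : ℕ) [Fact l.Prime] (V : Affine (ZMod l)) [V.IsElliptic]
  (k : Type v) [Field k] [Algebra (ZMod l) k] [DecidableEq k]

/-- `β = 1 + ε φʲ` on the points over `K` -/
noncomputable def betaK (ε : ℤ) (j : ℕ) : (V⁄(K V k)).Point →+ (V⁄(K V k)).Point :=
  AddMonoidHom.id _ + ε • phiK l V k j

/-- `β = 1 + ε φʲ` on the points over `k` -/
noncomputable def betak (ε : ℤ) (j : ℕ) : (V⁄k).Point →+ (V⁄k).Point :=
  AddMonoidHom.id _ + ε • phik l V k j

theorem betaK_apply (ε : ℤ) (j : ℕ) (P : (V⁄(K V k)).Point) :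
    betaK l V k ε j P = P + ε • phiK l V k j P := rfl

theorem betak_apply (ε : ℤ) (j : ℕ) (T : (V⁄k).Point) :
    betak l V k ε j T = T + ε • phik l V k j T := rfl

theorem betaK_P0_mem_Gamma (ε : ℤ) (j : ℕ) : betaK l V k ε j (P0 V k) ∈ Gamma V k := by
  rw [betaK_apply]
  exact (Gamma V k).add_mem (P0_mem_Gamma V k)
    ((Gamma V k).zsmul_mem (frobK_pow_mem_Gamma l V k j (P0_mem_Gamma V k)) ε)

theorem integralB_K (A : ValuationSubring (K V k)) :
    Fermat.Agent.S05.KR.IntegralB A (V⁄(K V k)) :=
  Fermat.Agent.S05.KR.integralB_of_a A (V⁄(K V k)) (algebraMap_ZMod_mem l V k A _)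
    (algebraMap_ZMod_mem l V k A _) (algebraMap_ZMod_mem l V k A _)
    (algebraMap_ZMod_mem l V k A _) (algebraMap_ZMod_mem l V k A _)

/-- **(A)**: `β P0` is an affine point whose `x`-coordinate is a rational function `r` of `t`
with `deg num r = deg denom r + 1`. -/
theorem exists_x_betaK_P0 (ε : ℤˣ) (j : ℕ) (hj : 0 < j) :
    ∃ (r : RatFunc k) (y₃ : K V k)
      (h₃ : (V⁄(K V k)).Nonsingular (algebraMap (RatFunc k) (K V k) r) y₃),
      betaK l V k (ε : ℤ) j (P0 V k) = Point.some _ _ h₃ ∧
        r.num.natDegree = r.denom.natDegree + 1 := by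
  obtain ⟨A, hk, htA⟩ := exists_place_infty (k := k) (tK V k) (transcendental_tK V k)
  have hB := integralB_K l V k A
  have hQ : 2 ≤ l ^ j := by
    have h2 : 2 ≤ l := (Fact.out : l.Prime).two_le
    calc 2 ≤ l := h2
      _ = l ^ 1 := (pow_one l).symm
      _ ≤ l ^ j := Nat.pow_le_pow_right (by omega) hj
  have ht0 : tK V k ≠ 0 := by rintro h; exact htA (h ▸ A.zero_mem)
  -- the Frobenius twin of the generic point
  have hφ : phiK l V k j (P0 V k) = Point.some ((frobK l V k ^ j) (tK V k))
      ((frobK l V k ^ j) (y0 V k))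
      ((V.baseChange_nonsingular (frobK l V k ^ j).injective ..).mpr (nonsingular_gen V k)) := rfl
  have hx2 : (frobK l V k ^ j) (tK V k) = tK V k ^ l ^ j := frobK_pow_apply l V k j _
  have hx20 : (frobK l V k ^ j) (tK V k) ≠ 0 := by rw [hx2]; exact pow_ne_zero _ ht0
  have h21 : tK V k / (frobK l V k ^ j) (tK V k) ∈ A.nonunits := by
    rw [hx2]; exact div_pow_mem_nonunits htA hQ
  -- the sum / difference
  obtain ⟨x₃, y₃, h₃, hsum, hU⟩ : ∃ (x₃ y₃ : K V k) (h₃ : (V⁄(K V k)).Nonsingular x₃ y₃),
      betaK l V k (ε : ℤ) j (P0 V k) = Point.some x₃ y₃ h₃ ∧ IsU A (x₃ / tK V k) := by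
    rcases Int.units_eq_one_or ε with rfl | rfl
    · obtain ⟨x₃, y₃, h₃, e, hU⟩ := exists_add_isU_div hB (nonsingular_gen V k)
        ((V.baseChange_nonsingular (frobK l V k ^ j).injective ..).mpr (nonsingular_gen V k))
        htA hx20 h21
      refine ⟨x₃, y₃, h₃, ?_, hU⟩
      rw [betaK_apply, hφ, Units.val_one, one_zsmul]
      exact e
    · obtain ⟨x₃, y₃, h₃, e, hU⟩ := exists_sub_isU_div hB (nonsingular_gen V k)
        ((V.baseChange_nonsingular (frobK l V k ^ j).injective ..).mpr (nonsingular_gen V k))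
        htA hx20 h21
      refine ⟨x₃, y₃, h₃, ?_, hU⟩
      rw [betaK_apply, hφ, Units.val_neg, Units.val_one, neg_one_zsmul, ← sub_eq_add_neg]
      exact e
  have hG := betaK_P0_mem_Gamma l V k (ε : ℤ) j
  rw [hsum] at hG
  obtain ⟨r, hr⟩ := x_mem_range_of_mem_Gamma V k h₃ hG
  subst hr
  refine ⟨r, y₃, h₃, hsum, ?_⟩
  have hr0 : r ≠ 0 := by
    rintro rfl
    rw [map_zero, zero_div] at hU
    exact hU.ne_zero rfl
  have hu : r.num ≠ 0 := RatFunc.num_ne_zero hr0
  have hv : r.denom ≠ 0 := RatFunc.denom_ne_zero r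
  refine natDegree_eq_add_one_of_unit A hk htA r.num r.denom hu hv (aeval_tK_ne_zero V k hv) ?_
  rw [← algebraMap_ratFunc]
  exact hU

variable [IsAlgClosed k]

/-- **(B)**: specialisation of `x(β P0) = u(t)/v(t)` at an affine point `T = (c, d)` of `V(k)`. -/
theorem spec_betaK_P0 (ε : ℤ) (j : ℕ) (r : RatFunc k) (y₃ : K V k)
    (h₃ : (V⁄(K V k)).Nonsingular (algebraMap (RatFunc k) (K V k) r) y₃)
    (e : betaK l V k ε j (P0 V k) = Point.some _ _ h₃)
    {c d : k} (hT : (V⁄k).Nonsingular c d) :
    (r.denom.eval c = 0 → betak l V k ε j (Point.some c d hT) = 0) ∧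
    (r.denom.eval c ≠ 0 → ∃ (y' : k)
      (h' : (V⁄k).Nonsingular (r.num.eval c / r.denom.eval c) y'),
      betak l V k ε j (Point.some c d hT) = Point.some _ _ h') := by
  obtain ⟨A, hA⟩ := exists_place_affine (V⁄k) (tK V k) (y0 V k) (equation_gen' V k)
    (transcendental_tK V k) hT.1
  have hk : ∀ a : k, algebraMap k (K V k) a ∈ A := hA.algebraMap_mem
  have key := redA_beta l V k A hk ε j hT hA
  rw [← betaK_apply, ← betak_apply, e, redA_apply] at key
  have hcop := RatFunc.isCoprime_num_denom r
  have hv0 : aeval (tK V k) r.denom ≠ 0 := aeval_tK_ne_zero V k (RatFunc.denom_ne_zero r)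
  have hxr := algebraMap_ratFunc V k r
  constructor
  · intro hvc
    have hnot : algebraMap (RatFunc k) (K V k) r ∉ A := by
      rw [hxr]
      exact quot_not_mem A hk hA.t_mem hA.t_sub_mem_nonunits r.num r.denom hcop hv0 hvc
    have h0 : red A (V⁄(ResidueField A)) (Point.some _ _ h₃) = 0 :=
      (red_eq_zero_iff' (isRedOf_A l V k A) (Δ_res_ne_zero l V k A) _).2 hnot
    rw [h0] at key
    apply embRes_injective l V k A hk
    rw [← key, map_zero]
  · intro hvc
    have hmem : algebraMap (RatFunc k) (K V k) r ∈ A := by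
      rw [hxr]
      exact quot_mem A hk hA.t_mem hA.t_sub_mem_nonunits r.num r.denom hvc
    obtain ⟨hy, hn, e'⟩ := red_some_of_mem (isRedOf_A l V k A) (Δ_res_ne_zero l V k A) h₃ hmem
    rw [e'] at key
    have hres : residue A ⟨algebraMap (RatFunc k) (K V k) r, hmem⟩ =
        toRes l V k A hk (r.num.eval c / r.denom.eval c) := by
      apply residue_eq_toRes l V k A hk hmem
      rw [hxr]
      exact quot_sub_mem_nonunits A hk hA.t_mem hA.t_sub_mem_nonunits r.num r.denom hvc
    cases hβ : betak l V k ε j (Point.some c d hT) with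
    | zero =>
      rw [hβ] at key
      have e0 : (Point.zero : (V⁄k).Point) = 0 := rfl
      rw [e0, map_zero] at key
      exact absurd key (by simp)
    | some x' y' h' =>
      rw [hβ] at key
      unfold embRes at key
      rw [Point.map_some] at key
      have hx' : residue A ⟨algebraMap (RatFunc k) (K V k) r, hmem⟩ = toRes l V k A hk x' :=
        (Point.some.inj key).1
      have hxeq : x' = r.num.eval c / r.denom.eval c :=
        toRes_injective l V k A hk (hx'.symm.trans hres)
      subst hxeq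
      exact ⟨y', h', rfl⟩

/-- **E4 (COUNT), concrete form.**  For `β = 1 + ε φʲ` (`ε = ±1`, `j ≥ 1`): `β P0` is an affine
point of `V(K)` whose `x`-coordinate is the image of a rational function `r ∈ k(t)`, and the kernel
of `β` on `V(k)` is finite of cardinality `max (deg num r) (deg denom r)`. -/
theorem card_ker_betak (ε : ℤˣ) (j : ℕ) (hj : 0 < j) :
    ∃ (r : RatFunc k) (y₃ : K V k)
      (h₃ : (V⁄(K V k)).Nonsingular (algebraMap (RatFunc k) (K V k) r) y₃),
      betaK l V k (ε : ℤ) j (P0 V k) = Point.some _ _ h₃ ∧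
      Finite (betak l V k (ε : ℤ) j).ker ∧
      Nat.card (betak l V k (ε : ℤ) j).ker = max r.num.natDegree r.denom.natDegree := by
  obtain ⟨r, y₃, h₃, e, hdeg⟩ := exists_x_betaK_P0 l V k ε j hj
  refine ⟨r, y₃, h₃, e, ?_⟩
  refine Fermat.Agent.GE.CountAbs.finite_ker_and_card (V⁄k) (betak l V k (ε : ℤ) j)
    r.num r.denom (RatFunc.isCoprime_num_denom r) hdeg ?_ ?_
  · intro x y h
    obtain ⟨h1, h2⟩ := spec_betaK_P0 l V k (ε : ℤ) j r y₃ h₃ e h
    constructor
    · exact h1
    · intro h0
      by_contra hv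
      obtain ⟨y', h', e'⟩ := h2 hv
      rw [e'] at h0
      exact absurd h0 (by simp)
  · intro x y h hv
    exact (spec_betaK_P0 l V k (ε : ℤ) j r y₃ h₃ e h).2 hv

end Main

end Fermat.Agent.GE.Count
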