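import Fermat.Agent.GE.Count.Global
import Fermat.Agent.GE.CountSurj
import Fermat.Agent.GE.FF.GammaDeg
import Fermat.Agent.GE.FrobSpec

/-!
# GE / E4 → E5 adapter: the counting gates `h1 h2 h3 hsurj` of `FrobFinal.frob_quadratic_of_gates`

In the exact shapes consumed by helper91's `frob_quadratic_of_gates`, with
`Γ := Gamma V k`, `d := dΓ V k`, `Φ := frobΓ l V k`, `P₀ := P0Γ V k`, `F := ZMod l`.
-/

set_option autoImplicit false
set_option linter.unusedSectionVars false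

namespace Fermat.Agent.GE.Count

open Polynomial WeierstrassCurve WeierstrassCurve.Affine
open Fermat.Agent.GE.FF Fermat.Agent.GE.FF.GammaDeg Fermat.Agent.GE.FrobSpec
open Fermat.Agent.GE.RatFuncDeg

universe v

variable (l : ℕ) [Fact l.Prime] (V : Affine (ZMod l)) [V.IsElliptic]
  (k : Type v) [Field k] [Algebra (ZMod l) k] [DecidableEq k] [IsAlgClosed k]

/-- the degree of `β P0` is the number of points of `ker β` -/
theorem dG_betaK_P0 (ε : ℤˣ) (j : ℕ) (hj : 0 < j) :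
    dG V k (betaK l V k (ε : ℤ) j (P0 V k)) = Nat.card (betak l V k (ε : ℤ) j).ker := by
  obtain ⟨r, y₃, h₃, e, -, hcard⟩ := card_ker_betak l V k ε j hj
  rw [e, dG_some V k h₃ rfl, rdeg_ratFunc, hcard]

/-- `β = 1 + ε φʲ` is surjective on `V(k)` -/
theorem surjective_betak (ε : ℤˣ) (j : ℕ) (hj : 0 < j) :
    Function.Surjective (betak l V k (ε : ℤ) j) := by
  obtain ⟨r, y₃, h₃, e, hdeg⟩ := exists_x_betaK_P0 l V k ε j hj
  refine Fermat.Agent.GE.CountSurj.surjective_of_x (V⁄k) (betak l V k (ε : ℤ) j)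
    r.num r.denom (RatFunc.isCoprime_num_denom r) hdeg ?_
  intro x y h hv
  exact (spec_betaK_P0 l V k (ε : ℤ) j r y₃ h₃ e h).2 hv

/-! ### bridges to `frobPt (ZMod l) k` -/

theorem frobeniusAlgHom_eq : FiniteField.frobeniusAlgHom (ZMod l) k = frobAlg l k ^ 1 := by
  ext x
  rw [FiniteField.frobeniusAlgHom_apply, ZMod.card, frobAlg_pow_apply, pow_one]

theorem frobPt_eq_phik : frobPt (ZMod l) k (W₀ := V) = phik l V k 1 := by
  unfold frobPt phik
  rw [frobeniusAlgHom_eq]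

theorem frobPt_comp_frobPt_eq_phik :
    (frobPt (ZMod l) k (W₀ := V)).comp (frobPt (ZMod l) k (W₀ := V)) = phik l V k 2 := by
  rw [frobPt_eq_phik]
  ext T
  unfold phik
  rw [AddMonoidHom.comp_apply, Point.map_map]
  congr 2

theorem id_sub_frobPt_eq :
    AddMonoidHom.id (V⁄k).Point - frobPt (ZMod l) k (W₀ := V) =
      betak l V k ((-1 : ℤˣ) : ℤ) 1 := by
  rw [frobPt_eq_phik]
  ext T
  rw [betak_apply, AddMonoidHom.sub_apply, AddMonoidHom.id_apply, Units.val_neg, Units.val_one,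
    neg_one_zsmul, sub_eq_add_neg]

theorem id_add_frobPt_eq :
    AddMonoidHom.id (V⁄k).Point + frobPt (ZMod l) k (W₀ := V) =
      betak l V k ((1 : ℤˣ) : ℤ) 1 := by
  rw [frobPt_eq_phik]
  ext T
  rw [betak_apply, AddMonoidHom.add_apply, AddMonoidHom.id_apply, Units.val_one, one_zsmul]

theorem id_sub_frobPt_sq_eq :
    AddMonoidHom.id (V⁄k).Point -
        (frobPt (ZMod l) k (W₀ := V)).comp (frobPt (ZMod l) k (W₀ := V)) =
      betak l V k ((-1 : ℤˣ) : ℤ) 2 := by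
  rw [frobPt_comp_frobPt_eq_phik]
  ext T
  rw [betak_apply, AddMonoidHom.sub_apply, AddMonoidHom.id_apply, Units.val_neg, Units.val_one,
    neg_one_zsmul, sub_eq_add_neg]

/-! ### the gates -/

theorem coe_sub_frobΓ :
    ((P0Γ V k - frobΓ l V k (P0Γ V k) : Gamma V k) : (V⁄(K V k)).Point) =
      betaK l V k ((-1 : ℤˣ) : ℤ) 1 (P0 V k) := by
  rw [betaK_apply, Units.val_neg, Units.val_one, neg_one_zsmul, ← sub_eq_add_neg]
  unfold phiK
  rw [pow_one]
  rfl

theorem coe_add_frobΓ :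
    ((P0Γ V k + frobΓ l V k (P0Γ V k) : Gamma V k) : (V⁄(K V k)).Point) =
      betaK l V k ((1 : ℤˣ) : ℤ) 1 (P0 V k) := by
  rw [betaK_apply, Units.val_one, one_zsmul]
  unfold phiK
  rw [pow_one]
  rfl

theorem coe_sub_frobΓ_sq :
    ((P0Γ V k - frobΓ l V k (frobΓ l V k (P0Γ V k)) : Gamma V k) : (V⁄(K V k)).Point) =
      betaK l V k ((-1 : ℤˣ) : ℤ) 2 (P0 V k) := by
  rw [betaK_apply, Units.val_neg, Units.val_one, neg_one_zsmul, ← sub_eq_add_neg]
  unfold phiK
  rw [pow_two]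
  show P0 V k - Point.map (W' := V) (frobK l V k) (Point.map (W' := V) (frobK l V k) (P0 V k)) = _
  rw [Point.map_map]
  rfl

/-- **gate h1** of `frob_quadratic_of_gates` -/
theorem gate_h1 : dΓ V k (P0Γ V k - frobΓ l V k (P0Γ V k)) =
    Nat.card (AddMonoidHom.id (V⁄k).Point - frobPt (ZMod l) k (W₀ := V)).ker := by
  unfold dΓ
  rw [coe_sub_frobΓ, dG_betaK_P0 l V k (-1) 1 Nat.one_pos, id_sub_frobPt_eq]

/-- **gate h2** of `frob_quadratic_of_gates` -/
theorem gate_h2 : dΓ V k (P0Γ V k + frobΓ l V k (P0Γ V k)) =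
    Nat.card (AddMonoidHom.id (V⁄k).Point + frobPt (ZMod l) k (W₀ := V)).ker := by
  unfold dΓ
  rw [coe_add_frobΓ, dG_betaK_P0 l V k 1 1 Nat.one_pos, id_add_frobPt_eq]

/-- **gate h3** of `frob_quadratic_of_gates` -/
theorem gate_h3 : dΓ V k (P0Γ V k - frobΓ l V k (frobΓ l V k (P0Γ V k))) =
    Nat.card (AddMonoidHom.id (V⁄k).Point -
      (frobPt (ZMod l) k (W₀ := V)).comp (frobPt (ZMod l) k (W₀ := V))).ker := by
  unfold dΓ
  rw [coe_sub_frobΓ_sq, dG_betaK_P0 l V k (-1) 2 (by norm_num), id_sub_frobPt_sq_eq]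

/-- **gate hsurj** of `frob_quadratic_of_gates` -/
theorem gate_hsurj :
    Function.Surjective (AddMonoidHom.id (V⁄k).Point - frobPt (ZMod l) k (W₀ := V)) := by
  rw [id_sub_frobPt_eq]
  exact surjective_betak l V k (-1) 1 Nat.one_pos

end Fermat.Agent.GE.Count
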